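import Fermat.Prelude.Def_EllipticCurve_FrobeniusTrace
import Mathlib.RingTheory.Invariant.Profinite
import Mathlib.RingTheory.IntegralClosure.Algebra.Basic
import Mathlib.RingTheory.Valuation.LocalSubring
import Mathlib.FieldTheory.Galois.Profinite
import Mathlib.FieldTheory.IsAlgClosed.AlgebraicClosure
import Mathlib.RingTheory.Localization.Integral
import Mathlib.RingTheory.IntegralClosure.IntegrallyClosed
import Mathlib.Algebra.CharP.Lemmas
import Mathlib.FieldTheory.Galois.Infinite

/-!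
Existence of Frobenius elements in the absolute Galois group of `ℚ`, for the predicate
`ValuationSubring.IsFrobeniusAt` of the prelude.

* `exists_valuationSubring_liesOverPrime`: a place of `ℚ̄` over every prime.
* `exists_isFrobeniusAt`: a Frobenius element at every place over a prime.
* `exists_valuationSubring_isFrobeniusAt`: both combined.
-/

set_option autoImplicit false

noncomputable section

open scoped Pointwise

namespace Fermat.Agent.Galois

/-- `Qb` abbreviates the fixed algebraic closure of `ℚ`. -/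
local notation "Qb" => AlgebraicClosure ℚ

/-- A prime of `ℤ` extends to a valuation subring of every field of characteristic zero. -/
theorem exists_valuationSubring_liesOverPrime {L : Type*} [Field L] [CharZero L]
    {ℓ : ℕ} (hℓ : ℓ.Prime) : ∃ A : ValuationSubring L, A.LiesOverPrime ℓ := by
  let R : Subring L := (Int.castRingHom L).range
  have hmem : ((ℓ : ℕ) : L) ∈ R := ⟨(ℓ : ℤ), by simp⟩
  let I : Ideal R := Ideal.span {⟨_, hmem⟩}
  have hI : I ≠ ⊤ := by
    intro h
    obtain ⟨⟨_, m, rfl⟩, hm⟩ := Ideal.mem_span_singleton'.mp ((Ideal.eq_top_iff_one I).mp h)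
    have hm' : (m : L) * (ℓ : L) = 1 := congrArg Subtype.val hm
    have h1 : m * (ℓ : ℤ) = 1 := by exact_mod_cast hm'
    have h2 : (ℓ : ℤ) ∣ 1 := Dvd.intro_left m h1
    exact hℓ.not_dvd_one (by exact_mod_cast h2)
  obtain ⟨A, -, hA⟩ := Ideal.image_subset_nonunits_valuationSubring I hI
  exact ⟨A, hA ⟨⟨_, hmem⟩, Ideal.mem_span_singleton_self _, rfl⟩⟩

section Center

variable {L : Type*} [Field L]

/-- An algebraic integer lies in every valuation subring. -/
theorem mem_valuationSubring_of_isIntegral_int (A : ValuationSubring L) {x : L}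
    (hx : IsIntegral ℤ x) : x ∈ A := by
  have hx' : IsIntegral A x := hx.tower_top
  obtain ⟨y, rfl⟩ := (IsIntegrallyClosed.isIntegral_iff (R := A) (K := L)).mp hx'
  exact y.2

/-- A valuation subring lying over a prime `ℓ` meets `ℤ` in `ℓℤ`. -/
theorem intCast_mem_nonunits_iff (A : ValuationSubring L) {ℓ : ℕ} (hℓ : ℓ.Prime)
    (hA : A.LiesOverPrime ℓ) (m : ℤ) : (m : L) ∈ A.nonunits ↔ (ℓ : ℤ) ∣ m := by
  let P : Ideal ℤ := (IsLocalRing.maximalIdeal A).comap (Int.castRingHom A)
  have hP : ∀ n : ℤ, n ∈ P ↔ (n : L) ∈ A.nonunits := fun n => by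
    change (n : A) ∈ IsLocalRing.maximalIdeal A ↔ _
    rw [← ValuationSubring.coe_mem_nonunits_iff]
    simp
  have hmax : (Ideal.span {(ℓ : ℤ)}).IsMaximal :=
    PrincipalIdealRing.isMaximal_of_irreducible (Nat.prime_iff_prime_int.mp hℓ).irreducible
  have hne : P ≠ ⊤ := Ideal.comap_ne_top _ (IsLocalRing.maximalIdeal.isMaximal A).ne_top
  have hle : Ideal.span {(ℓ : ℤ)} ≤ P := by
    rw [Ideal.span_singleton_le_iff_mem, hP, Int.cast_natCast]
    exact hA
  rw [← hP, ← hmax.eq_of_le hne hle, Ideal.mem_span_singleton]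

/-- An element lying in every valuation subring is an algebraic integer. -/
theorem isIntegral_int_of_forall_mem {x : L} (h : ∀ A : ValuationSubring L, x ∈ A) :
    IsIntegral ℤ x := by
  let R : Subring L := (integralClosure ℤ L).toSubring
  have : IsIntegrallyClosedIn R L := by
    refine isIntegrallyClosedIn_iff.mpr ⟨Subtype.val_injective, fun {y} hy => ?_⟩
    have : Algebra.IsIntegral ℤ R :=
      (inferInstance : Algebra.IsIntegral ℤ (integralClosure ℤ L))
    exact ⟨⟨y, isIntegral_trans (R := ℤ) (A := R) y hy⟩, rfl⟩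
  have h2 : x ∈ R := by
    by_contra hx
    obtain ⟨V, -, hxV⟩ := Subring.exists_le_valuationSubring_of_isIntegrallyClosedIn hx
    exact hxV (h V)
  exact h2

/-- Every element of a valuation subring lying over a prime is a fraction of algebraic integers
whose denominator is a unit at that valuation subring. -/
theorem exists_isIntegral_mul_of_mem [CharZero L] (A : ValuationSubring L) {ℓ : ℕ} (hℓ : ℓ.Prime)
    (hA : A.LiesOverPrime ℓ) {x : L} (hx : IsAlgebraic ℤ x) (hxA : x ∈ A) :
    ∃ s : L, IsIntegral ℤ s ∧ IsIntegral ℤ (x * s) ∧ s ∉ A.nonunits := by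
  classical
  obtain ⟨p, hp0, hp⟩ := hx
  obtain ⟨q, hqprim, hq⟩ : ∃ q : Polynomial ℤ, q.IsPrimitive ∧ Polynomial.aeval x q = 0 :=
    ⟨p.primPart, p.isPrimitive_primPart, by
      have h1 : Polynomial.aeval x (Polynomial.C p.content * p.primPart) = 0 := by
        rw [← p.eq_C_content_mul_primPart]; exact hp
      rw [map_mul, Polynomial.aeval_C] at h1
      refine (mul_eq_zero.mp h1).resolve_left ?_
      rw [algebraMap_int_eq, eq_intCast]
      exact Int.cast_ne_zero.mpr (mt Polynomial.content_eq_zero_iff.mp hp0)⟩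
  let n := q.natDegree
  -- Horner partial sums
  let b : ℕ → L := fun j => Nat.rec (q.coeff n : L) (fun i r => r * x + (q.coeff (n - i - 1) : L)) j
  have hb0 : b 0 = (q.coeff n : L) := rfl
  have hbs : ∀ j, b (j + 1) = b j * x + (q.coeff (n - j - 1) : L) := fun j => rfl
  have hinv : ∀ j, j ≤ n →
      b j * x ^ (n - j) + ∑ i ∈ Finset.range (n - j), (q.coeff i : L) * x ^ i = 0 := by
    intro j
    induction j with
    | zero =>
      intro _
      have := hq
      rw [Polynomial.aeval_eq_sum_range, Finset.sum_range_succ] at this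
      simp only [zsmul_eq_mul] at this
      rw [hb0, Nat.sub_zero, add_comm]
      exact this
    | succ j ih =>
      intro hj
      have h1 : n - j = n - (j + 1) + 1 := by omega
      have h2 : n - j - 1 = n - (j + 1) := by omega
      have := ih (by omega)
      rw [h1, Finset.sum_range_succ, pow_succ] at this
      rw [hbs, h2, ← this]
      ring
  have hbn : b n = 0 := by simpa using hinv n le_rfl
  have hcoeff : ∀ (V : ValuationSubring L) (i : ℕ), (q.coeff i : L) ∈ V :=
    fun V i => intCast_mem V _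
  -- each partial sum is integral
  have hint : ∀ j, j ≤ n → IsIntegral ℤ (b j) := by
    intro j hj
    refine isIntegral_int_of_forall_mem fun V => ?_
    by_cases hxV : x ∈ V
    · clear hj
      induction j with
      | zero => exact hcoeff V _
      | succ j ih => rw [hbs]; exact add_mem (mul_mem ih hxV) (hcoeff V _)
    · have hxi : x⁻¹ ∈ V := (V.mem_or_inv_mem x).resolve_left hxV
      have hx0 : x ≠ 0 := fun h => hxV (h ▸ zero_mem V)
      have key : ∀ d j, j + d = n → b j ∈ V := by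
        intro d
        induction d with
        | zero => intro j h; rw [← Nat.add_zero j, h, hbn]; exact zero_mem V
        | succ d ih =>
          intro j h
          have h1 : b j = (b (j + 1) - (q.coeff (n - j - 1) : L)) * x⁻¹ := by
            rw [hbs]; field_simp; ring
          rw [h1]
          exact mul_mem (sub_mem (ih (j + 1) (by omega)) (hcoeff V _)) hxi
      exact key (n - j) j (by omega)
  by_contra hcon
  have hnu : ∀ j, j ≤ n → b j ∈ A.nonunits := by
    intro j hj
    rcases hj.lt_or_eq with hlt | rfl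
    · by_contra hbj
      refine hcon ⟨b j, hint j hj, ?_, hbj⟩
      have h1 : x * b j = b (j + 1) - (q.coeff (n - j - 1) : L) := by rw [hbs]; ring
      rw [h1]
      exact (hint (j + 1) hlt).sub (isIntegral_algebraMap (x := q.coeff (n - j - 1)))
    · rw [hbn]; exact zero_mem A.nonunits
  have hdvd : ∀ i, i ≤ n → (ℓ : ℤ) ∣ q.coeff i := by
    intro i hi
    rw [← intCast_mem_nonunits_iff A hℓ hA]
    rcases hi.lt_or_eq with hlt | rfl
    · have h1 := hbs (n - i - 1)
      rw [show n - (n - i - 1) - 1 = i by omega] at h1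
      rw [show (q.coeff i : L) = b (n - i - 1 + 1) - b (n - i - 1) * x by rw [h1]; ring]
      refine sub_mem (hnu _ (show n - i - 1 + 1 ≤ n by omega)) ?_
      rw [ValuationSubring.mem_nonunits_iff, map_mul]
      calc A.valuation (b (n - i - 1)) * A.valuation x ≤ A.valuation (b (n - i - 1)) * 1 :=
            mul_le_mul_right ((A.valuation_le_one_iff x).mpr hxA) _
        _ < 1 := by rw [mul_one]; exact A.mem_nonunits_iff.mp (hnu _ (by omega))
    · exact hb0 ▸ hnu 0 (Nat.zero_le _)
  have hC : Polynomial.C (ℓ : ℤ) ∣ q := by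
    rw [Polynomial.C_dvd_iff_dvd_coeff]
    intro i
    by_cases hi : i ≤ n
    · exact hdvd i hi
    · rw [Polynomial.coeff_eq_zero_of_natDegree_lt (by omega)]; exact dvd_zero _
  exact (Nat.prime_iff_prime_int.mp hℓ).not_isUnit (hqprim _ hC)

end Center

section Frobenius

-- `Algebra ℚ ℚ̄` elaborates to `DivisionRing.toRatAlgebra`, so restate the instances for it
local instance : Algebra.IsAlgebraic ℚ Qb := AlgebraicClosure.isAlgebraic ℚ

local instance : IsAlgClosure ℚ Qb := ⟨inferInstance, inferInstance⟩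

local instance : IsGalois ℚ Qb := IsAlgClosure.isGalois ℚ Qb

local instance : TopologicalSpace (integralClosure ℤ Qb) := ⊥

local instance : DiscreteTopology (integralClosure ℤ Qb) := ⟨rfl⟩

local instance : ContinuousSMul (Qb ≃ₐ[ℚ] Qb) (integralClosure ℤ Qb) := by
  rw [continuousSMul_iff_stabilizer_isOpen]
  intro x
  have h : MulAction.stabilizer (Qb ≃ₐ[ℚ] Qb) x = MulAction.stabilizer (Qb ≃ₐ[ℚ] Qb) (x : Qb) := by
    ext σ
    exact Subtype.ext_iff
  rw [h]
  exact stabilizer_isOpen_of_isIntegral _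

local instance : Algebra.IsInvariant ℤ (integralClosure ℤ Qb) (Qb ≃ₐ[ℚ] Qb) := by
  refine ⟨fun b hb => ?_⟩
  obtain ⟨r, hr⟩ := (InfiniteGalois.mem_range_algebraMap_iff_fixed (b : Qb)).mpr
    fun σ => congrArg Subtype.val (hb σ)
  have hint : IsIntegral ℤ r := by
    rw [← isIntegral_algebraMap_iff (B := Qb) (algebraMap ℚ Qb).injective, hr]
    exact b.2
  obtain ⟨m, rfl⟩ := IsIntegrallyClosed.isIntegral_iff.mp hint
  refine ⟨m, Subtype.ext ?_⟩
  rw [← hr]
  simp

/-- The residue class of an element of an algebraically closed field's ring of integers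
always has an `n`-th root. -/
private theorem exists_pow_eq_integer {n : ℕ} (hn : 0 < n) (b : integralClosure ℤ Qb) :
    ∃ c : integralClosure ℤ Qb, c ^ n = b := by
  obtain ⟨c, hc⟩ := IsAlgClosed.exists_pow_nat_eq (b : Qb) hn
  exact ⟨⟨c, IsIntegral.of_pow hn (by rw [hc]; exact b.2)⟩, Subtype.ext hc⟩

/-- A Frobenius element exists at every place of `ℚ̄` above a prime. -/
theorem exists_isFrobeniusAt (A : ValuationSubring Qb) {ℓ : ℕ} (hℓ : ℓ.Prime)
    (hA : A.LiesOverPrime ℓ) : ∃ σ : Qb ≃ₐ[ℚ] Qb, A.IsFrobeniusAt σ ℓ := by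
  have : Fact ℓ.Prime := ⟨hℓ⟩
  let ι : integralClosure ℤ Qb →+* A :=
    { toFun := fun b => ⟨b, mem_valuationSubring_of_isIntegral_int A b.2⟩
      map_one' := rfl
      map_mul' := fun _ _ => rfl
      map_zero' := rfl
      map_add' := fun _ _ => rfl }
  let Q : Ideal (integralClosure ℤ Qb) := (IsLocalRing.maximalIdeal A).comap ι
  have hQp : Q.IsPrime := Ideal.IsPrime.comap ι
  have hQmem : ∀ b : integralClosure ℤ Qb, b ∈ Q ↔ (b : Qb) ∈ A.nonunits := fun b => by
    rw [Ideal.mem_comap, ← ValuationSubring.coe_mem_nonunits_iff]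
    rfl
  let P : Ideal ℤ := Ideal.span {(ℓ : ℤ)}
  have hQP : Q.LiesOver P := ⟨by
    ext m
    rw [Ideal.mem_span_singleton, Ideal.mem_comap, hQmem, ← intCast_mem_nonunits_iff A hℓ hA]
    simp⟩
  have hℓQ : ((ℓ : ℕ) : integralClosure ℤ Qb) ∈ Q := by
    rw [hQmem]
    simpa [ValuationSubring.LiesOverPrime] using hA
  have : CharP (integralClosure ℤ Qb ⧸ Q) ℓ := by
    refine (CharP.charP_iff_prime_eq_zero hℓ).mpr ?_
    rw [← map_natCast (Ideal.Quotient.mk Q)]
    exact Ideal.Quotient.eq_zero_iff_mem.mpr hℓQ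
  have hbij : Function.Bijective (frobenius (integralClosure ℤ Qb ⧸ Q) ℓ) := by
    refine ⟨frobenius_inj _ ℓ, fun y => ?_⟩
    obtain ⟨b, rfl⟩ := Ideal.Quotient.mk_surjective y
    obtain ⟨c, rfl⟩ := exists_pow_eq_integer hℓ.pos b
    exact ⟨Ideal.Quotient.mk Q c, by rw [frobenius_def, map_pow]⟩
  let e : (integralClosure ℤ Qb ⧸ Q) ≃ₐ[ℤ ⧸ P] (integralClosure ℤ Qb ⧸ Q) :=
    AlgEquiv.ofRingEquiv (f := RingEquiv.ofBijective _ hbij) fun r =>
      DFunLike.congr_fun (Ideal.Quotient.ringHom_ext (Subsingleton.elim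
        (((frobenius (integralClosure ℤ Qb ⧸ Q) ℓ).comp (algebraMap (ℤ ⧸ P) _)).comp
          (Ideal.Quotient.mk P))
        ((algebraMap (ℤ ⧸ P) (integralClosure ℤ Qb ⧸ Q)).comp (Ideal.Quotient.mk P)))) r
  obtain ⟨⟨σ, hσ⟩, hσe⟩ :=
    Ideal.Quotient.stabilizerHom_surjective_of_profinite (G := Qb ≃ₐ[ℚ] Qb) P Q e
  have hfrob : ∀ b : integralClosure ℤ Qb, σ • b - b ^ ℓ ∈ Q := fun b => by
    rw [← Ideal.Quotient.eq, map_pow]
    exact DFunLike.congr_fun hσe (Ideal.Quotient.mk Q b)
  have hstab : ∀ b : integralClosure ℤ Qb, σ • b ∈ Q ↔ b ∈ Q := fun b => by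
    conv_lhs => rw [← MulAction.mem_stabilizer_iff.mp hσ]
    exact Ideal.smul_mem_pointwise_smul_iff
  -- fraction representation of elements of `A`
  have hrep : ∀ x : Qb, x ∈ A → ∃ s t : integralClosure ℤ Qb, s ∉ Q ∧ x * (s : Qb) = t := by
    intro x hx
    obtain ⟨s, hs1, hs2, hs3⟩ := exists_isIntegral_mul_of_mem A hℓ hA
      ((IsFractionRing.isAlgebraic_iff ℤ ℚ Qb).mpr (Algebra.IsAlgebraic.isAlgebraic x)) hx
    exact ⟨⟨s, hs1⟩, ⟨_, hs2⟩, fun h => hs3 ((hQmem _).mp h), rfl⟩
  have hdiv : ∀ x : Qb, ∀ s t : integralClosure ℤ Qb, s ∉ Q → x * (s : Qb) = t → x ∈ A := by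
    intro x s t hs hxs
    rw [hQmem, A.mem_nonunits_iff, not_lt] at hs
    rw [← A.valuation_le_one_iff]
    have h1 : A.valuation x * A.valuation (s : Qb) ≤ 1 := by
      rw [← map_mul, hxs]
      exact (A.valuation_le_one_iff _).mpr (mem_valuationSubring_of_isIntegral_int A t.2)
    exact le_trans (le_mul_of_one_le_right zero_le hs) h1
  have hmapsTo : ∀ x : Qb, x ∈ A ↔ σ x ∈ A := by
    refine fun x => ⟨fun hx => ?_, fun hx => ?_⟩
    · obtain ⟨s, t, hs, hxs⟩ := hrep x hx
      refine hdiv _ (σ • s) (σ • t) (fun h => hs ((hstab s).mp h)) ?_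
      show σ x * σ (s : Qb) = σ (t : Qb)
      rw [← map_mul, hxs]
    · obtain ⟨s, t, hs, hxs⟩ := hrep _ hx
      refine hdiv _ (σ⁻¹ • s) (σ⁻¹ • t) (fun h => hs ?_) ?_
      · simpa using (hstab (σ⁻¹ • s)).mpr h
      · show x * σ.symm (s : Qb) = σ.symm (t : Qb)
        rw [← hxs, map_mul, AlgEquiv.symm_apply_apply]
  have hdec : σ ∈ A.decompositionSubgroup ℚ := by
    rw [MulAction.mem_stabilizer_iff]
    ext x
    rw [ValuationSubring.mem_smul_pointwise_iff_exists]
    exact ⟨fun ⟨y, hy, hxy⟩ => hxy ▸ (hmapsTo y).mp hy,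
      fun hx => ⟨σ.symm x, (hmapsTo _).mpr (by rw [σ.apply_symm_apply]; exact hx),
        σ.apply_symm_apply x⟩⟩
  refine ⟨σ, hdec, fun y => ?_⟩
  obtain ⟨⟨x, hx⟩, rfl⟩ := IsLocalRing.residue_surjective y
  obtain ⟨s, t, hs, hxs⟩ := hrep x hx
  have hres : ∀ b : integralClosure ℤ Qb,
      (⟨σ, hdec⟩ : A.decompositionSubgroup ℚ) • IsLocalRing.residue A (ι b) =
        IsLocalRing.residue A (ι b) ^ ℓ := fun b => by
    rw [← IsLocalRing.ResidueField.residue_smul, ← map_pow, ← map_pow]
    refine Ideal.Quotient.eq.mpr ?_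
    exact hfrob b
  have hs0 : IsLocalRing.residue A (ι s) ≠ 0 :=
    fun h => hs ((IsLocalRing.residue_eq_zero_iff _).mp h)
  refine mul_right_cancel₀ (pow_ne_zero ℓ hs0) ?_
  rw [← mul_pow, ← map_mul, show (⟨x, hx⟩ : A) * ι s = ι t from Subtype.ext hxs]
  rw [← hres t, ← hres s, ← smul_mul', ← map_mul,
    show (⟨x, hx⟩ : A) * ι s = ι t from Subtype.ext hxs]

/-- For every prime there is a place of `ℚ̄` above it with a Frobenius element. -/
theorem exists_valuationSubring_isFrobeniusAt {ℓ : ℕ} (hℓ : ℓ.Prime) :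
    ∃ (A : ValuationSubring Qb) (σ : Qb ≃ₐ[ℚ] Qb),
      A.LiesOverPrime ℓ ∧ A.IsFrobeniusAt σ ℓ := by
  obtain ⟨A, hA⟩ := exists_valuationSubring_liesOverPrime (L := Qb) hℓ
  obtain ⟨σ, hσ⟩ := exists_isFrobeniusAt A hℓ hA
  exact ⟨A, σ, hA, hσ⟩

end Frobenius

end Fermat.Agent.Galois
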