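import Fermat.Agent.Galois.Frobenius
import Fermat.Prelude.Def_FLTPrelim_Ramification
import Mathlib.NumberTheory.NumberField.ExistsRamified
import Mathlib.NumberTheory.NumberField.Basic
import Mathlib.FieldTheory.Galois.IsGaloisGroup

/-!
Lifting of inertia to `Γ_ℚ` and the theorem of Minkowski in Galois-theoretic form.

* `exists_mem_inertia_of_forall_sub_mem`: an element of `Γ_ℚ` acting trivially modulo a place on
  the integers fixed by a closed normal subgroup `H` agrees modulo `H` with an inertia element.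
* `eq_top_of_forall_exists_inertia_le`: an open normal subgroup containing, for every prime, the
  inertia group at some place above it is everything.
-/

set_option autoImplicit false

noncomputable section

open scoped Pointwise NumberField

namespace Fermat.Agent.Galois

/-- `Qb` abbreviates the fixed algebraic closure of `ℚ`. -/
local notation "Qb" => AlgebraicClosure ℚ

local instance : Algebra.IsAlgebraic ℚ Qb := AlgebraicClosure.isAlgebraic ℚ

local instance : IsAlgClosure ℚ Qb := ⟨inferInstance, inferInstance⟩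

local instance : IsGalois ℚ Qb := IsAlgClosure.isGalois ℚ Qb

local instance : TopologicalSpace (integralClosure ℤ Qb) := ⊥

local instance : DiscreteTopology (integralClosure ℤ Qb) := ⟨rfl⟩

local instance : ContinuousSMul (Qb ≃ₐ[ℚ] Qb) (integralClosure ℤ Qb) := by
  rw [continuousSMul_iff_stabilizer_isOpen]
  intro x
  have h : MulAction.stabilizer (Qb ≃ₐ[ℚ] Qb) x = MulAction.stabilizer (Qb ≃ₐ[ℚ] Qb) (x : Qb) := by
    ext σ
    exact Subtype.ext_iff
  rw [h]
  exact stabilizer_isOpen_of_isIntegral _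

/-- The inclusion of the algebraic integers in a valuation subring. -/
def integersToPlace (A : ValuationSubring Qb) : integralClosure ℤ Qb →+* A where
  toFun b := ⟨b, mem_valuationSubring_of_isIntegral_int A b.2⟩
  map_one' := rfl
  map_mul' _ _ := rfl
  map_zero' := rfl
  map_add' _ _ := rfl

/-- The prime of the algebraic integers cut out by a valuation subring. -/
def placeCenter (A : ValuationSubring Qb) : Ideal (integralClosure ℤ Qb) :=
  (IsLocalRing.maximalIdeal A).comap (integersToPlace A)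

instance placeCenter_isPrime (A : ValuationSubring Qb) : (placeCenter A).IsPrime :=
  Ideal.IsPrime.comap _

theorem mem_placeCenter_iff (A : ValuationSubring Qb) (b : integralClosure ℤ Qb) :
    b ∈ placeCenter A ↔ (b : Qb) ∈ A.nonunits := by
  rw [placeCenter, Ideal.mem_comap, ← ValuationSubring.coe_mem_nonunits_iff]
  rfl

/-- An automorphism acting trivially on the algebraic integers modulo a place over a prime lies
in the inertia group at that place. -/
theorem mem_inertiaSubgroupIn_of_forall_sub_mem (A : ValuationSubring Qb) {ℓ : ℕ}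
    (hℓ : ℓ.Prime) (hA : A.LiesOverPrime ℓ) {σ : Qb ≃ₐ[ℚ] Qb}
    (hσ : ∀ b : integralClosure ℤ Qb, σ • b - b ∈ placeCenter A) :
    σ ∈ A.inertiaSubgroupIn ℚ := by
  have hQmem := mem_placeCenter_iff A
  have hstab : ∀ b : integralClosure ℤ Qb, σ • b ∈ placeCenter A ↔ b ∈ placeCenter A := by
    intro b
    constructor <;> intro h
    · simpa using sub_mem h (hσ b)
    · simpa using add_mem (hσ b) h
  have hrep : ∀ x : Qb, x ∈ A →
      ∃ s t : integralClosure ℤ Qb, s ∉ placeCenter A ∧ x * (s : Qb) = t := by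
    intro x hx
    obtain ⟨s, hs1, hs2, hs3⟩ := exists_isIntegral_mul_of_mem A hℓ hA
      ((IsFractionRing.isAlgebraic_iff ℤ ℚ Qb).mpr (Algebra.IsAlgebraic.isAlgebraic x)) hx
    exact ⟨⟨s, hs1⟩, ⟨_, hs2⟩, fun h => hs3 ((hQmem _).mp h), rfl⟩
  have hdiv : ∀ x : Qb, ∀ s t : integralClosure ℤ Qb,
      s ∉ placeCenter A → x * (s : Qb) = t → x ∈ A := by
    intro x s t hs hxs
    rw [hQmem, A.mem_nonunits_iff, not_lt] at hs
    rw [← A.valuation_le_one_iff]
    have h1 : A.valuation x * A.valuation (s : Qb) ≤ 1 := by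
      rw [← map_mul, hxs]
      exact (A.valuation_le_one_iff _).mpr (mem_valuationSubring_of_isIntegral_int A t.2)
    exact le_trans (le_mul_of_one_le_right zero_le hs) h1
  have hmapsTo : ∀ x : Qb, x ∈ A ↔ σ x ∈ A := by
    refine fun x => ⟨fun hx => ?_, fun hx => ?_⟩
    · obtain ⟨s, t, hs, hxs⟩ := hrep x hx
      refine hdiv _ (σ • s) (σ • t) (fun h => hs ((hstab s).mp h)) ?_
      show σ x * σ (s : Qb) = σ (t : Qb)
      rw [← map_mul, hxs]
    · obtain ⟨s, t, hs, hxs⟩ := hrep _ hx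
      refine hdiv _ (σ⁻¹ • s) (σ⁻¹ • t) (fun h => hs ?_) ?_
      · simpa using (hstab (σ⁻¹ • s)).mpr h
      · show x * σ.symm (s : Qb) = σ.symm (t : Qb)
        rw [← hxs, map_mul, AlgEquiv.symm_apply_apply]
  have hdec : σ ∈ A.decompositionSubgroup ℚ := by
    rw [MulAction.mem_stabilizer_iff]
    ext x
    rw [ValuationSubring.mem_smul_pointwise_iff_exists]
    exact ⟨fun ⟨y, hy, hxy⟩ => hxy ▸ (hmapsTo y).mp hy,
      fun hx => ⟨σ.symm x, (hmapsTo _).mpr (by rw [σ.apply_symm_apply]; exact hx),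
        σ.apply_symm_apply x⟩⟩
  refine Subgroup.mem_map.mpr ⟨⟨σ, hdec⟩, ?_, rfl⟩
  rw [ValuationSubring.inertiaSubgroup, MonoidHom.mem_ker]
  refine RingEquiv.ext fun y => ?_
  show (⟨σ, hdec⟩ : A.decompositionSubgroup ℚ) • y = y
  obtain ⟨⟨x, hx⟩, rfl⟩ := IsLocalRing.residue_surjective y
  obtain ⟨s, t, hs, hxs⟩ := hrep x hx
  have hres : ∀ b : integralClosure ℤ Qb,
      (⟨σ, hdec⟩ : A.decompositionSubgroup ℚ) • IsLocalRing.residue A (integersToPlace A b) =
        IsLocalRing.residue A (integersToPlace A b) := fun b => by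
    rw [← IsLocalRing.ResidueField.residue_smul]
    refine Ideal.Quotient.eq.mpr ?_
    exact hσ b
  have hs0 : IsLocalRing.residue A (integersToPlace A s) ≠ 0 :=
    fun h => hs ((IsLocalRing.residue_eq_zero_iff _).mp h)
  refine mul_right_cancel₀ hs0 ?_
  rw [← map_mul, show (⟨x, hx⟩ : A) * integersToPlace A s = integersToPlace A t from
    Subtype.ext hxs]
  conv_lhs => rw [← hres s]
  rw [← smul_mul', ← map_mul, show (⟨x, hx⟩ : A) * integersToPlace A s = integersToPlace A t from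
    Subtype.ext hxs, hres t]

/-- Lifting inertia: if `σ₀` acts trivially modulo a place on the algebraic integers fixed by the
closed normal subgroup `H`, then an inertia element at the place agrees with `σ₀` modulo `H`. -/
theorem exists_mem_inertia_of_forall_sub_mem (H : Subgroup (Qb ≃ₐ[ℚ] Qb)) [H.Normal]
    (hH : IsClosed (H : Set (Qb ≃ₐ[ℚ] Qb))) (A : ValuationSubring Qb) {ℓ : ℕ} (hℓ : ℓ.Prime)
    (hA : A.LiesOverPrime ℓ) {σ₀ : Qb ≃ₐ[ℚ] Qb}
    (hσ₀ : ∀ b : integralClosure ℤ Qb, (∀ h ∈ H, h • b = b) → σ₀ • b - b ∈ placeCenter A) :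
    ∃ σ ∈ A.inertiaSubgroupIn ℚ, σ * σ₀⁻¹ ∈ H := by
  have : CompactSpace H := isCompact_iff_compactSpace.mp hH.isCompact
  let Q := placeCenter A
  let R := FixedPoints.subalgebra ℤ (integralClosure ℤ Qb) H
  have : SMulCommClass H R (integralClosure ℤ Qb) := ⟨fun h r b => by
    show h • ((r : integralClosure ℤ Qb) * b) = (r : integralClosure ℤ Qb) * (h • b)
    rw [smul_mul', r.2 h]⟩
  have : Algebra.IsInvariant R (integralClosure ℤ Qb) H := ⟨fun b hb => ⟨⟨b, hb⟩, rfl⟩⟩
  have hR : ∀ (r : R) (h : Qb ≃ₐ[ℚ] Qb), h ∈ H →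
      h • (r : integralClosure ℤ Qb) = r := fun r h hh => r.2 ⟨h, hh⟩
  have hR' : ∀ r : R, ∀ h ∈ H,
      h • (σ₀ • (r : integralClosure ℤ Qb)) = σ₀ • (r : integralClosure ℤ Qb) := by
    intro r h hh
    have hh' : σ₀⁻¹ * h * σ₀ ∈ H := by
      simpa using Subgroup.Normal.conj_mem ‹H.Normal› h hh σ₀⁻¹
    conv_rhs => rw [← hR r _ hh']
    rw [← mul_smul σ₀, ← mul_assoc, ← mul_assoc, mul_inv_cancel, one_mul, mul_smul]
  -- move `σ₀` into the decomposition group
  have hunder : (σ₀ • Q).under R = Q.under R := by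
    ext r
    have hr := hσ₀ r (hR r)
    have hr' : (r : integralClosure ℤ Qb) - σ₀⁻¹ • (r : integralClosure ℤ Qb) ∈ Q := by
      have hfix : ∀ h ∈ H, h • (σ₀⁻¹ • (r : integralClosure ℤ Qb)) =
          σ₀⁻¹ • (r : integralClosure ℤ Qb) := by
        intro h hh
        have hh' : σ₀ * h * σ₀⁻¹ ∈ H := Subgroup.Normal.conj_mem ‹H.Normal› h hh σ₀
        conv_rhs => rw [← hR r _ hh']
        rw [← mul_smul σ₀⁻¹, mul_assoc σ₀, inv_mul_cancel_left, mul_smul]
      simpa [← mul_smul] using hσ₀ _ hfix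
    show (r : integralClosure ℤ Qb) ∈ σ₀ • Q ↔ (r : integralClosure ℤ Qb) ∈ Q
    rw [Ideal.mem_pointwise_smul_iff_inv_smul_mem]
    exact ⟨fun h => by simpa using add_mem hr' h, fun h => by simpa using sub_mem h hr'⟩
  obtain ⟨⟨h, hh⟩, hhQ⟩ :=
    Algebra.IsInvariant.exists_smul_of_under_eq_of_profinite (A := R) (G := H) (σ₀ • Q) Q hunder
  let σ₁ := h * σ₀
  have hσ₁Q : σ₁ • Q = Q := by rw [mul_smul]; exact hhQ.symm
  have hσ₁R : ∀ r : R, σ₁ • (r : integralClosure ℤ Qb) - r ∈ Q := fun r => by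
    rw [mul_smul, hR' r h hh]; exact hσ₀ r (hR r)
  -- its effect on the residue ring is realised inside `H`
  let P := Q.under R
  have hσ₁mem : ∀ b : integralClosure ℤ Qb, σ₁ • b ∈ Q ↔ b ∈ Q := fun b => by
    conv_lhs => rw [← hσ₁Q]
    exact Ideal.smul_mem_pointwise_smul_iff
  let f : (integralClosure ℤ Qb ⧸ Q) ≃+* (integralClosure ℤ Qb ⧸ Q) :=
    Ideal.quotientEquiv Q Q (MulSemiringAction.toRingEquiv _ (integralClosure ℤ Qb) σ₁) (by
      conv_lhs => rw [← hσ₁Q]
      rfl)
  have hf : ∀ b, f (Ideal.Quotient.mk Q b) = Ideal.Quotient.mk Q (σ₁ • b) := fun _ => rfl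
  let e : (integralClosure ℤ Qb ⧸ Q) ≃ₐ[R ⧸ P] (integralClosure ℤ Qb ⧸ Q) :=
    AlgEquiv.ofRingEquiv (f := f) fun x => by
      obtain ⟨r, rfl⟩ := Ideal.Quotient.mk_surjective x
      show f (Ideal.Quotient.mk Q (r : integralClosure ℤ Qb)) =
        Ideal.Quotient.mk Q (r : integralClosure ℤ Qb)
      rw [hf, Ideal.Quotient.eq]
      exact hσ₁R r
  obtain ⟨⟨⟨h', hh'⟩, hstab'⟩, hh'e⟩ :=
    Ideal.Quotient.stabilizerHom_surjective_of_profinite (G := H) P Q e
  have hh'Q : h' • Q = Q := hstab'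
  have key : ∀ b : integralClosure ℤ Qb, h' • b - σ₁ • b ∈ Q := fun b => by
    rw [← Ideal.Quotient.eq, ← hf]
    exact DFunLike.congr_fun hh'e (Ideal.Quotient.mk Q b)
  refine ⟨h'⁻¹ * σ₁, mem_inertiaSubgroupIn_of_forall_sub_mem A hℓ hA fun b => ?_, ?_⟩
  · have h1 : h'⁻¹ • (σ₁ • b - h' • b) ∈ h'⁻¹ • Q :=
      Ideal.smul_mem_pointwise_smul _ _ _ (by simpa using neg_mem (key b))
    have h2 : h'⁻¹ • Q = Q := by
      conv_lhs => rw [← hh'Q]
      rw [inv_smul_smul]
    rw [h2, smul_sub, inv_smul_smul] at h1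
    rwa [mul_smul]
  · show h'⁻¹ * (h * σ₀) * σ₀⁻¹ ∈ H
    rw [mul_assoc, mul_inv_cancel_right]
    exact mul_mem (inv_mem hh') hh

/-- The inclusion of the integers of a subfield in the algebraic integers. -/
def subfieldIntegers (F : IntermediateField ℚ Qb) : 𝓞 F →+* integralClosure ℤ Qb where
  toFun x := ⟨((x : F) : Qb), x.2.map F.val.toRingHom.toIntAlgHom⟩
  map_one' := rfl
  map_mul' _ _ := rfl
  map_zero' := rfl
  map_add' _ _ := rfl

/-- The prime of the integers of a subfield cut out by a valuation subring. -/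
def placePrime (F : IntermediateField ℚ Qb) (A : ValuationSubring Qb) : Ideal (𝓞 F) :=
  (placeCenter A).comap (subfieldIntegers F)

instance placePrime_isPrime (F : IntermediateField ℚ Qb) (A : ValuationSubring Qb) :
    (placePrime F A).IsPrime :=
  Ideal.IsPrime.comap _

theorem mem_placePrime_iff (F : IntermediateField ℚ Qb) (A : ValuationSubring Qb) (x : 𝓞 F) :
    x ∈ placePrime F A ↔ ((x : F) : Qb) ∈ A.nonunits := by
  rw [placePrime, Ideal.mem_comap, mem_placeCenter_iff]
  rfl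

/-- Every element of the inertia group of a finite Galois extension of `ℚ` is the restriction of
an inertia element of `Γ_ℚ`. -/
theorem exists_mem_inertia_restrict (F : IntermediateField ℚ Qb) [FiniteDimensional ℚ F]
    [IsGalois ℚ F] (A : ValuationSubring Qb) {ℓ : ℕ} (hℓ : ℓ.Prime) (hA : A.LiesOverPrime ℓ)
    {g : Gal(F/ℚ)} (hg : g ∈ Ideal.inertia Gal(F/ℚ) (placePrime F A)) :
    ∃ σ ∈ A.inertiaSubgroupIn ℚ, AlgEquiv.restrictNormalHom F σ = g := by
  obtain ⟨σ₀, hσ₀⟩ := AlgEquiv.restrictNormalHom_surjective (F := ℚ) (K₁ := F) Qb g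
  have key : ∀ b : integralClosure ℤ Qb, (∀ h ∈ F.fixingSubgroup, h • b = b) →
      σ₀ • b - b ∈ placeCenter A := by
    intro b hb
    have hbF : (b : Qb) ∈ F := by
      rw [← InfiniteGalois.fixedField_fixingSubgroup F]
      exact fun h => congrArg Subtype.val (hb h h.2)
    have hint : IsIntegral ℤ (⟨(b : Qb), hbF⟩ : F) :=
      (isIntegral_algHom_iff F.val.toRingHom.toIntAlgHom F.val.injective).mp b.2
    let x : 𝓞 F := ⟨⟨(b : Qb), hbF⟩, hint⟩
    have hx : g • x - x ∈ placePrime F A := hg x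
    have hgx : subfieldIntegers F (g • x) = σ₀ • b := Subtype.ext (by
      rw [← hσ₀]
      exact AlgEquiv.restrictNormal_commutes σ₀ F ⟨(b : Qb), hbF⟩)
    rwa [placePrime, Ideal.mem_comap, map_sub, hgx] at hx
  have : F.fixingSubgroup.Normal :=
    (InfiniteGalois.normal_iff_isGalois F).mpr (by convert ‹IsGalois ℚ F›; exact Subsingleton.elim _ _)
  obtain ⟨σ, hσ, hσF⟩ := exists_mem_inertia_of_forall_sub_mem F.fixingSubgroup
    (InfiniteGalois.fixingSubgroup_isClosed F) A hℓ hA key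
  refine ⟨σ, hσ, ?_⟩
  rw [← hσ₀]
  refine AlgEquiv.ext fun x => (algebraMap F Qb).injective ?_
  refine (AlgEquiv.restrictNormal_commutes σ F x).trans
    (Eq.trans ?_ (AlgEquiv.restrictNormal_commutes σ₀ F x).symm)
  have hmem : σ₀ (x : Qb) ∈ F := by
    have h := AlgEquiv.restrictNormal_commutes σ₀ F x
    rw [show σ₀ (x : Qb) = algebraMap F Qb (σ₀.restrictNormal F x) from h.symm]
    exact (σ₀.restrictNormal F x).2
  have := hσF ⟨σ₀ (x : Qb), hmem⟩
  simpa using this

/-- **Minkowski.** An open normal subgroup of `Γ_ℚ` containing for every prime the inertia group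
at some place above that prime is the whole group. -/
theorem eq_top_of_forall_exists_inertia_le (H : Subgroup (Qb ≃ₐ[ℚ] Qb)) [hn : H.Normal]
    (hH : IsOpen (H : Set (Qb ≃ₐ[ℚ] Qb)))
    (hI : ∀ ℓ : ℕ, ℓ.Prime →
      ∃ A : ValuationSubring Qb, A.LiesOverPrime ℓ ∧ A.inertiaSubgroupIn ℚ ≤ H) :
    H = ⊤ := by
  have hHc : IsClosed (H : Set (Qb ≃ₐ[ℚ] Qb)) := Subgroup.isClosed_of_isOpen H hH
  let F := IntermediateField.fixedField H
  have hfix : F.fixingSubgroup = H := InfiniteGalois.fixingSubgroup_fixedField ⟨H, hHc⟩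
  obtain ⟨hfd, hgal⟩ := (InfiniteGalois.isOpen_and_normal_iff_finite_and_isGalois F).mp
    ⟨by rw [hfix]; exact hH, by rw [hfix]; exact hn⟩
  have : IsGalois ℚ F := by convert hgal; exact Subsingleton.elim _ _
  have : FiniteDimensional ℚ F := by convert hfd
  by_contra hne
  have hrank : 1 < Module.finrank ℚ F := by
    have hpos : 0 < Module.finrank ℚ F := Module.finrank_pos
    by_contra hle
    apply hne
    rw [← hfix, IntermediateField.finrank_eq_one_iff.mp (by omega : Module.finrank ℚ F = 1)]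
    exact IntermediateField.fixingSubgroup_bot
  have : NumberField F := { }
  obtain ⟨ℓ, hℓ, hram⟩ :=
    NumberField.exists_not_isUnramifiedAt_int_of_isGalois (K := F) (𝒪 := 𝓞 F) hrank
  obtain ⟨A, hA, hAH⟩ := hI ℓ hℓ
  let P : Ideal (𝓞 F) := placePrime F A
  have hPp : P.IsPrime := placePrime_isPrime F A
  have hℓP : (ℓ : 𝓞 F) ∈ P := by
    rw [mem_placePrime_iff]
    simpa [ValuationSubring.LiesOverPrime] using hA
  have hcard : Nat.card (Ideal.inertia Gal(F/ℚ) P) ≠ 1 := by
    intro hc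
    have hP0 : P ≠ ⊥ := fun h => by
      rw [h, Ideal.mem_bot, Nat.cast_eq_zero] at hℓP
      exact hℓ.ne_zero hℓP
    have : P.IsMaximal := hPp.isMaximal hP0
    have : (P.under ℤ).IsMaximal := Ideal.IsMaximal.under ℤ P
    apply hram P hPp hℓP
    rw [← Ideal.ramificationIdx_eq_one_iff,
      ← Ideal.ramificationIdxIn_eq_ramificationIdx (P.under ℤ) P Gal(F/ℚ),
      ← Ideal.card_inertia_eq_ramificationIdxIn (G := Gal(F/ℚ)) (P.under ℤ) P, hc]
  obtain ⟨g, hg, hg1⟩ : ∃ g ∈ Ideal.inertia Gal(F/ℚ) P, g ≠ 1 := by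
    by_contra hall
    refine hcard (Subgroup.card_eq_one.mpr ((Subgroup.eq_bot_iff_forall _).mpr fun g hg => ?_))
    by_contra h1
    exact hall ⟨g, hg, h1⟩
  obtain ⟨σ, hσ, rfl⟩ := exists_mem_inertia_restrict F A hℓ hA hg
  apply hg1
  refine AlgEquiv.ext fun x => (algebraMap F Qb).injective ?_
  refine (AlgEquiv.restrictNormal_commutes σ F x).trans ?_
  have hσH : σ ∈ F.fixingSubgroup := by
    rw [hfix]
    exact hAH hσ
  exact hσH x

end Fermat.Agent.Galois
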